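import Fermat.Agent.S37.H218.Degree
import Fermat.Agent.S37.Sq38.ESCore
import Fermat.Agent.S37.H697.HeckeBound
import Fermat.Agent.Lib.FF398.Hecke

/-!
# S37 / [ES] input ES-D (helper218): `T_ℓ [P]` is effective of degree `≤ ℓ + 1`

`esDegree N ℓ hℓ hα hβ : Sq38.EsDegree N ℓ hα hβ` — the frozen input ES-D of
`Fermat/Agent/S37/Sq38/ESCore.lean` (squad S37/S38, `coord/S37-ES.md`), UNCONDITIONAL for every
prime `ℓ` (no hypothesis `ℓ ∤ N` is needed for the inequality).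

* `degree_heckeDivBar` : `deg (T_ℓ D) = [F̄_{Nℓ} : β F̄_N] · deg D`;
* `degree_heckeDivBar_single_of_not_dvd` : `deg (T_ℓ [P]) = ℓ + 1` for a prime `ℓ ∤ N`;
* `heckeDivBar_single_nonneg` : `T_ℓ [P] ≥ 0`.

Inputs: the degree of `β` (`H218/Degree.lean`, S28 degree theory), the fundamental identity along
`β` (landed HIA, `Lib/FF398/Hecke.lean`), positivity of pull-back/push-forward (`H697/HeckeBound`).
-/

set_option autoImplicit false

noncomputable section

open ModularCurve HahnSeries IntermediateField AlgebraicCurve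

namespace Fermat.Agent.S37.H218

variable (N ℓ : ℕ) [NeZero N] [NeZero ℓ]

/-- `T_ℓ [P]` is an effective divisor. -/
theorem heckeDivBar_single_nonneg
    (hα : HeckeAlphaBarIntegral (AlgebraicClosure ℚ) N ℓ)
    (hβ : HeckeBetaBarIntegral (AlgebraicClosure ℚ) N ℓ)
    [HasPrincipalDivisors (AlgebraicClosure ℚ) (modularFunctionFieldBar (N * ℓ))]
    (P P' : Place (AlgebraicClosure ℚ) (modularFunctionFieldBar N)) :
    0 ≤ heckeDivBar hα hβ (Finsupp.single P 1) P' := by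
  classical
  refine Fermat.Agent.S37.H697.pushforwardAlong_nonneg
    (heckeAlphaBar (AlgebraicClosure ℚ) N ℓ) hα _ (fun w => ?_) P'
  refine Fermat.Agent.S37.H697.pullbackAlong_nonneg
    (heckeBetaBar (AlgebraicClosure ℚ) N ℓ) hβ _ (fun u => ?_) w
  rw [Finsupp.single_apply]
  split_ifs <;> norm_num

/-- `deg (T_ℓ D) = [F̄_{Nℓ} : β F̄_N] · deg D`. -/
theorem degree_heckeDivBar
    (hα : HeckeAlphaBarIntegral (AlgebraicClosure ℚ) N ℓ)
    (hβ : HeckeBetaBarIntegral (AlgebraicClosure ℚ) N ℓ)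
    [HasPrincipalDivisors (AlgebraicClosure ℚ) (modularFunctionFieldBar (N * ℓ))]
    (D : Divisor (AlgebraicClosure ℚ) (modularFunctionFieldBar N)) :
    Divisor.degree (heckeDivBar hα hβ D) =
      (finrankAlong (AlgebraicClosure ℚ) (heckeBetaBar (AlgebraicClosure ℚ) N ℓ) : ℤ) *
        Divisor.degree D :=
  Divisor.degree_correspondence (heckeBetaBar (AlgebraicClosure ℚ) N ℓ)
    (heckeAlphaBar (AlgebraicClosure ℚ) N ℓ) hβ hα
    (Fermat.Agent.Lib.FF398.fundamentalIdentityAlong_beta N ℓ) D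

/-- `deg (T_ℓ [P]) = [F̄_{Nℓ} : β F̄_N]`. -/
theorem degree_heckeDivBar_single
    (hα : HeckeAlphaBarIntegral (AlgebraicClosure ℚ) N ℓ)
    (hβ : HeckeBetaBarIntegral (AlgebraicClosure ℚ) N ℓ)
    [HasPrincipalDivisors (AlgebraicClosure ℚ) (modularFunctionFieldBar (N * ℓ))]
    (P : Place (AlgebraicClosure ℚ) (modularFunctionFieldBar N)) :
    Divisor.degree (heckeDivBar hα hβ (Finsupp.single P 1)) =
      (finrankAlong (AlgebraicClosure ℚ) (heckeBetaBar (AlgebraicClosure ℚ) N ℓ) : ℤ) := by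
  rw [degree_heckeDivBar, Divisor.degree_single, Fermat.Agent.Lib.FF398.deg_eq_one_FF N P,
    Nat.cast_one, mul_one, mul_one]

/-- `deg (T_ℓ [P]) = ℓ + 1` for a prime `ℓ ∤ N`. -/
theorem degree_heckeDivBar_single_of_not_dvd (hℓ : ℓ.Prime) (hℓN : ¬ ℓ ∣ N)
    (hα : HeckeAlphaBarIntegral (AlgebraicClosure ℚ) N ℓ)
    (hβ : HeckeBetaBarIntegral (AlgebraicClosure ℚ) N ℓ)
    [HasPrincipalDivisors (AlgebraicClosure ℚ) (modularFunctionFieldBar (N * ℓ))]
    (P : Place (AlgebraicClosure ℚ) (modularFunctionFieldBar N)) :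
    Divisor.degree (heckeDivBar hα hβ (Finsupp.single P 1)) = (ℓ : ℤ) + 1 := by
  rw [degree_heckeDivBar_single, finrankAlong_heckeBetaBar_of_not_dvd N ℓ hℓ hℓN]
  push_cast
  rfl

/-- **Input ES-D** of `Sq38/ESCore.lean`: `T_ℓ [P]` is effective of degree at most `ℓ + 1`. -/
theorem esDegree (hℓ : ℓ.Prime)
    (hα : HeckeAlphaBarIntegral (AlgebraicClosure ℚ) N ℓ)
    (hβ : HeckeBetaBarIntegral (AlgebraicClosure ℚ) N ℓ)
    [HasPrincipalDivisors (AlgebraicClosure ℚ) (modularFunctionFieldBar (N * ℓ))] :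
    Fermat.Agent.S37.Sq38.EsDegree N ℓ hα hβ := by
  intro P
  refine ⟨fun P' => heckeDivBar_single_nonneg N ℓ hα hβ P P', ?_⟩
  rw [degree_heckeDivBar_single]
  have h := finrankAlong_heckeBetaBar_le N ℓ hℓ
  exact_mod_cast h

end Fermat.Agent.S37.H218

end
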