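import Mathlib

/-!
# S37 / [ES] E-a (helper218): characteristic polynomials through embeddings, and the
"last embedding" by degree counting  (Mathlib only)

* `charpoly_lmul_map_eq_prod` : for a finite separable extension `K₁/K₀` and an algebraically
  closed `E ⊇ K₀`: `charpoly (x ·) = ∏_{σ : K₁ →ₐ[K₀] E} (X - σ x)`.
* `exists_last_embedding` : if `[K₁ : K₀] = ℓ + 1` and `τ : Fin ℓ → (K₁ →ₐ[K₀] E)` is injective,
  there is exactly one further embedding `τ∞`.
* `last_embedding_apply` : if the `τ b g` are pairwise distinct (`ℓ ≥ 2`), `g` is a root of a monic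
  `Φ` of degree `ℓ + 1` over `K₀` and `r ∈ E` is a root of `Φ` different from all `τ b g`,
  then `τ∞ g = r`.
-/

set_option autoImplicit false

noncomputable section

open Polynomial IntermediateField

namespace Fermat.Agent.S37.H218

section Eval

variable {K₀ K₁ : Type*} [Field K₀] [Field K₁] [Algebra K₀ K₁] [FiniteDimensional K₀ K₁]

/-- The characteristic polynomial of multiplication by `x`, evaluated at a scalar `t`, is the
norm of `t - x`. -/
theorem eval_charpoly_lmul (x : K₁) (t : K₀) :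
    (LinearMap.charpoly (Algebra.lmul K₀ K₁ x)).eval t =
      Algebra.norm K₀ (algebraMap K₀ K₁ t - x) := by
  classical
  set b := Module.finBasis K₀ K₁ with hb
  rw [← LinearMap.charpoly_toMatrix (Algebra.lmul K₀ K₁ x) b, Matrix.eval_charpoly,
    Algebra.norm_eq_matrix_det b, map_sub, AlgHom.commutes, Algebra.leftMulMatrix_apply]
  rfl

end Eval

section Emb

variable {K₀ K₁ E : Type*} [Field K₀] [Field K₁] [Field E] [Algebra K₀ K₁] [Algebra K₀ E]
  [FiniteDimensional K₀ K₁] [Algebra.IsSeparable K₀ K₁] [IsAlgClosed E]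

/-- **Characteristic polynomial through embeddings.** -/
theorem charpoly_lmul_map_eq_prod [Infinite K₀] (x : K₁) :
    (LinearMap.charpoly (Algebra.lmul K₀ K₁ x)).map (algebraMap K₀ E) =
      ∏ σ : K₁ →ₐ[K₀] E, (X - C (σ x)) := by
  apply Polynomial.eq_of_infinite_eval_eq
  refine Set.Infinite.mono ?_ (Set.infinite_range_of_injective (algebraMap K₀ E).injective)
  rintro _ ⟨t, rfl⟩
  show ((LinearMap.charpoly (Algebra.lmul K₀ K₁ x)).map (algebraMap K₀ E)).eval
      (algebraMap K₀ E t) = (∏ σ : K₁ →ₐ[K₀] E, (X - C (σ x))).eval (algebraMap K₀ E t)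
  rw [Polynomial.eval_map, Polynomial.eval₂_at_apply, eval_charpoly_lmul,
    Algebra.norm_eq_prod_embeddings K₀ E, Polynomial.eval_prod]
  refine Finset.prod_congr rfl fun σ _ => ?_
  simp

variable {ℓ : ℕ}

/-- If `[K₁ : K₀] = ℓ + 1` and we know `ℓ` distinct embeddings, there is exactly one more. -/
theorem exists_last_embedding (hdeg : Module.finrank K₀ K₁ = ℓ + 1)
    (τ : Fin ℓ → (K₁ →ₐ[K₀] E)) (hτ : Function.Injective τ) :
    ∃ τ' : K₁ →ₐ[K₀] E, (∀ b, τ b ≠ τ') ∧ ∀ σ : K₁ →ₐ[K₀] E, σ = τ' ∨ ∃ b, σ = τ b := by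
  classical
  have hcard : Fintype.card (K₁ →ₐ[K₀] E) = ℓ + 1 := by
    rw [AlgHom.card K₀ K₁ E, hdeg]
  set S : Finset (K₁ →ₐ[K₀] E) := Finset.univ.image τ with hS
  have hScard : S.card = ℓ := by
    rw [hS, Finset.card_image_of_injective _ hτ, Finset.card_univ, Fintype.card_fin]
  have hlt : S.card < (Finset.univ : Finset (K₁ →ₐ[K₀] E)).card := by
    rw [Finset.card_univ, hcard, hScard]; exact Nat.lt_succ_self ℓ
  obtain ⟨τ', -, hτ'⟩ := Finset.exists_mem_notMem_of_card_lt_card hlt
  refine ⟨τ', fun b hb => hτ' (Finset.mem_image.mpr ⟨b, Finset.mem_univ _, hb⟩), ?_⟩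
  have hins : insert τ' S = Finset.univ := by
    apply Finset.eq_univ_of_card
    rw [Finset.card_insert_of_notMem hτ', hScard, hcard]
  intro σ
  have hσ : σ ∈ insert τ' S := by rw [hins]; exact Finset.mem_univ σ
  rcases Finset.mem_insert.mp hσ with h | h
  · exact Or.inl h
  · obtain ⟨b, -, hb⟩ := Finset.mem_image.mp h
    exact Or.inr ⟨b, hb.symm⟩

omit [Algebra.IsSeparable K₀ K₁] [IsAlgClosed E] in
/-- The product over all embeddings splits as (last) * (the `ℓ` known ones). -/
theorem prod_embeddings_eq (τ : Fin ℓ → (K₁ →ₐ[K₀] E)) (hτ : Function.Injective τ)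
    (τ' : K₁ →ₐ[K₀] E) (h1 : ∀ b, τ b ≠ τ')
    (h2 : ∀ σ : K₁ →ₐ[K₀] E, σ = τ' ∨ ∃ b, σ = τ b) (x : K₁) :
    ∏ σ : K₁ →ₐ[K₀] E, (X - C (σ x)) = (X - C (τ' x)) * ∏ b : Fin ℓ, (X - C (τ b x)) := by
  classical
  let e : Option (Fin ℓ) → (K₁ →ₐ[K₀] E) := fun o => o.elim τ' τ
  have he : Function.Bijective e := by
    constructor
    · rintro (_ | a) (_ | b) h
      · rfl
      · exact absurd h.symm (h1 b)
      · exact absurd h (h1 a)
      · exact congrArg some (hτ h)
    · intro σ
      rcases h2 σ with h | ⟨b, hb⟩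
      · exact ⟨none, h.symm⟩
      · exact ⟨some b, hb.symm⟩
  rw [← Fintype.prod_bijective e he (fun o => X - C (e o x)) (fun σ => X - C (σ x))
    (fun _ => rfl), Fintype.prod_option]
  rfl

omit [IsAlgClosed E] in
/-- A monic polynomial of degree `ℓ + 1` with `ℓ + 1` known distinct roots has no other root. -/
theorem root_mem_of_card {P : E[X]} (hP : P.Monic) (hPd : P.natDegree = ℓ + 1)
    (r : E) (s : Fin ℓ → E) (hs : Function.Injective s) (hrs : ∀ b, s b ≠ r)
    (hr : P.eval r = 0) (hsr : ∀ b, P.eval (s b) = 0) {y : E} (hy : P.eval y = 0) :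
    y = r ∨ ∃ b, y = s b := by
  classical
  by_contra hcon
  rw [not_or, not_exists] at hcon
  set T : Finset E := insert y (insert r (Finset.univ.image s)) with hT
  have h1 : (Finset.univ.image s).card = ℓ := by
    rw [Finset.card_image_of_injective _ hs, Finset.card_univ, Fintype.card_fin]
  have h2 : r ∉ Finset.univ.image s := by
    intro h
    obtain ⟨b, -, hb⟩ := Finset.mem_image.mp h
    exact hrs b hb
  have h3 : y ∉ insert r (Finset.univ.image s) := by
    intro h
    rcases Finset.mem_insert.mp h with h | h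
    · exact hcon.1 h
    · obtain ⟨b, -, hb⟩ := Finset.mem_image.mp h
      exact hcon.2 b hb.symm
  have hTcard : T.card = ℓ + 2 := by
    rw [hT, Finset.card_insert_of_notMem h3, Finset.card_insert_of_notMem h2, h1]
  have hsub : T ⊆ P.roots.toFinset := by
    intro z hz
    rw [Multiset.mem_toFinset, Polynomial.mem_roots hP.ne_zero]
    rcases Finset.mem_insert.mp hz with h | h
    · rw [h]; exact hy
    rcases Finset.mem_insert.mp h with h | h
    · rw [h]; exact hr
    · obtain ⟨b, -, hb⟩ := Finset.mem_image.mp h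
      rw [← hb]; exact hsr b
  have := (Finset.card_le_card hsub).trans
    ((Multiset.toFinset_card_le _).trans (Polynomial.card_roots' P))
  rw [hTcard, hPd] at this
  omega

omit [IsAlgClosed E] [Algebra.IsSeparable K₀ K₁] in
/-- If `ℓ ≥ 2` embeddings take pairwise distinct values at `g` and `[K₁ : K₀] = ℓ + 1`, then
every embedding is determined by its value at `g`. -/
theorem algHom_ext_of_injective_values (hℓ : 2 ≤ ℓ) (hdeg : Module.finrank K₀ K₁ = ℓ + 1)
    (τ : Fin ℓ → (K₁ →ₐ[K₀] E)) (g : K₁) (hg : Function.Injective fun b => τ b g)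
    {σ σ' : K₁ →ₐ[K₀] E} (h : σ g = σ' g) : σ = σ' := by
  classical
  have hint : IsIntegral K₀ g := Algebra.IsIntegral.isIntegral g
  -- the minimal polynomial has at least `ℓ` roots in `E`
  have hroots : ∀ b, ((minpoly K₀ g).map (algebraMap K₀ E)).eval (τ b g) = 0 := by
    intro b
    rw [Polynomial.eval_map_algebraMap, Polynomial.aeval_algHom_apply, minpoly.aeval,
      map_zero]
  have hne : (minpoly K₀ g).map (algebraMap K₀ E) ≠ 0 :=
    Polynomial.map_ne_zero (minpoly.ne_zero hint)
  have hcardle : ℓ ≤ (minpoly K₀ g).natDegree := by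
    have hsub : (Finset.univ.image fun b => τ b g) ⊆
        ((minpoly K₀ g).map (algebraMap K₀ E)).roots.toFinset := by
      intro z hz
      obtain ⟨b, -, hb⟩ := Finset.mem_image.mp hz
      rw [Multiset.mem_toFinset, Polynomial.mem_roots hne, ← hb]
      exact hroots b
    have h1 := (Finset.card_le_card hsub).trans
      ((Multiset.toFinset_card_le _).trans (Polynomial.card_roots' _))
    rw [Finset.card_image_of_injective _ hg, Finset.card_univ, Fintype.card_fin,
      Polynomial.natDegree_map] at h1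
    exact h1
  have hfin : Module.finrank K₀ K₀⟮g⟯ = (minpoly K₀ g).natDegree :=
    IntermediateField.adjoin.finrank hint
  have hmul : Module.finrank K₀ K₀⟮g⟯ * Module.finrank K₀⟮g⟯ K₁ = ℓ + 1 := by
    rw [Module.finrank_mul_finrank, hdeg]
  have hd : Module.finrank K₀ K₀⟮g⟯ = ℓ + 1 := by
    have hdl : ℓ ≤ Module.finrank K₀ K₀⟮g⟯ := by rw [hfin]; exact hcardle
    set d := Module.finrank K₀ K₀⟮g⟯ with hd
    set m := Module.finrank K₀⟮g⟯ K₁ with hm
    have hm1 : m = 1 := by
      rcases Nat.lt_or_ge m 2 with h2 | h2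
      · interval_cases m
        · simp at hmul
        · rfl
      · exfalso
        have : d * 2 ≤ d * m := Nat.mul_le_mul_left d h2
        nlinarith
    rw [hm1, mul_one] at hmul
    exact hmul
  have htop : K₀⟮g⟯ = ⊤ := by
    apply IntermediateField.eq_of_le_of_finrank_eq le_top
    rw [hd, IntermediateField.finrank_top', hdeg]
  have hadj : Algebra.adjoin K₀ {g} = ⊤ := by
    rw [← IntermediateField.adjoin_simple_toSubalgebra_of_isAlgebraic hint.isAlgebraic, htop]
    rfl
  refine AlgHom.ext_of_adjoin_eq_top hadj ?_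
  intro z hz
  rw [Set.mem_singleton_iff.mp hz]
  exact h

omit [Algebra.IsSeparable K₀ K₁] [IsAlgClosed E] in
/-- **The last embedding by degree counting.** -/
theorem last_embedding_apply (hℓ : 2 ≤ ℓ) (hdeg : Module.finrank K₀ K₁ = ℓ + 1)
    (τ : Fin ℓ → (K₁ →ₐ[K₀] E)) (τ' : K₁ →ₐ[K₀] E) (h1 : ∀ b, τ b ≠ τ')
    (g : K₁) (hg : Function.Injective fun b => τ b g)
    (Φ : K₀[X]) (hΦm : Φ.Monic) (hΦd : Φ.natDegree = ℓ + 1) (hΦg : aeval g Φ = 0)
    (r : E) (hr : (Φ.map (algebraMap K₀ E)).eval r = 0) (hrτ : ∀ b, τ b g ≠ r) :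
    τ' g = r := by
  have hroot : ∀ σ : K₁ →ₐ[K₀] E, (Φ.map (algebraMap K₀ E)).eval (σ g) = 0 := by
    intro σ
    rw [Polynomial.eval_map_algebraMap, Polynomial.aeval_algHom_apply, hΦg, map_zero]
  rcases root_mem_of_card (hΦm.map _) (by rw [hΦm.natDegree_map, hΦd]) r (fun b => τ b g) hg hrτ
    hr (fun b => hroot (τ b)) (hroot τ') with h | ⟨b, hb⟩
  · exact h
  · exact absurd (algHom_ext_of_injective_values hℓ hdeg τ g hg hb).symm (h1 b)

end Emb

end Fermat.Agent.S37.H218
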